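import Mathlib

/-!
# Row S56 — W-FLAT-SS, piece FL-RAM (helper854): ramification core, Mathlib only

Setting: a discrete valuation ring `B` with finite residue field, a finite group `Γ` acting
faithfully on `B` by ring automorphisms, and a subring `A` (an `A`-algebra structure on `B`,
`B` module-finite over `A`) fixed by `Γ`.

* `HasOrd z k`               : `z ∈ 𝔪 ^ k`, `z ∉ 𝔪 ^ (k + 1)`  (`v_B z = k`), with its calculus.
* `exists_adjoin_eq_top`     : MONO — `B = A[x]` for some `x` (Serre, *Local Fields* III §6 Prop. 12,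
                               finite residue field), if `𝔪_A B = 𝔪_B ^ e`.
* `sub_dvd_smul_sub`         : `σ x - x ∣ σ y - y` for `y ∈ A[x]`.
* `exists_invariant_residue` : for `N` acting trivially on the residue field, every element of `B`
                               is congruent modulo `𝔪` to an `N`-invariant element (`f = 1`).
* `invariant_mem_pow_card`   : a non-unit `N`-invariant element lies in `𝔪 ^ |N|` (`e = |N|`).
* `card_dvd_of_invariant`    : `|N| ∣ v_B z` for `N`-invariant `z ≠ 0`.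
-/

set_option autoImplicit false

open Polynomial IsLocalRing

namespace Fermat.Agent.S56.H854

/-! ### Orders of elements of a discrete valuation ring -/

section Ord

variable {B : Type*} [CommRing B] [IsDomain B] [IsDiscreteValuationRing B]

/-- `z` has valuation exactly `k`. -/
def HasOrd (z : B) (k : ℕ) : Prop :=
  z ∈ maximalIdeal B ^ k ∧ z ∉ maximalIdeal B ^ (k + 1)

theorem mem_pow_iff_dvd {π : B} (hπ : Irreducible π) (n : ℕ) (x : B) :
    x ∈ maximalIdeal B ^ n ↔ π ^ n ∣ x := by
  rw [hπ.maximalIdeal_eq, Ideal.span_singleton_pow, Ideal.mem_span_singleton]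

theorem hasOrd_iff {π : B} (hπ : Irreducible π) (z : B) (k : ℕ) :
    HasOrd z k ↔ ∃ u : Bˣ, z = u * π ^ k := by
  constructor
  · rintro ⟨h1, h2⟩
    rw [mem_pow_iff_dvd hπ] at h1 h2
    obtain ⟨c, rfl⟩ := h1
    have hc : IsUnit c := by
      by_contra hc
      have hcm : c ∈ maximalIdeal B := (mem_maximalIdeal c).2 hc
      rw [hπ.maximalIdeal_eq, Ideal.mem_span_singleton] at hcm
      obtain ⟨c', rfl⟩ := hcm
      exact h2 ⟨c', by ring⟩
    exact ⟨hc.unit, by rw [IsUnit.unit_spec, mul_comm]⟩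
  · rintro ⟨u, rfl⟩
    refine ⟨(mem_pow_iff_dvd hπ _ _).2 (Dvd.intro_left _ rfl), fun h => ?_⟩
    rw [mem_pow_iff_dvd hπ] at h
    obtain ⟨c, hc⟩ := h
    have hπk : π ^ k ≠ 0 := pow_ne_zero _ hπ.ne_zero
    have h3 : (u : B) = π * c := by
      apply mul_left_cancel₀ hπk
      rw [mul_comm (π ^ k) (u : B), hc]; ring
    exact hπ.not_isUnit (isUnit_of_mul_isUnit_left (h3 ▸ u.isUnit))

theorem exists_hasOrd {z : B} (hz : z ≠ 0) : ∃ k, HasOrd z k := by
  obtain ⟨π, hπ⟩ := IsDiscreteValuationRing.exists_irreducible B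
  obtain ⟨n, u, hu⟩ := IsDiscreteValuationRing.eq_unit_mul_pow_irreducible hz hπ
  exact ⟨n, (hasOrd_iff hπ z n).2 ⟨u, hu⟩⟩

theorem HasOrd.ne_zero {z : B} {k : ℕ} (h : HasOrd z k) : z ≠ 0 := by
  rintro rfl
  exact h.2 (Ideal.zero_mem _)

theorem HasOrd.mem_iff {z : B} {k : ℕ} (h : HasOrd z k) (j : ℕ) :
    z ∈ maximalIdeal B ^ j ↔ j ≤ k := by
  constructor
  · intro hj
    by_contra hlt
    exact h.2 (Ideal.pow_le_pow_right (not_le.mp hlt) hj)
  · intro hj
    exact Ideal.pow_le_pow_right hj h.1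

theorem HasOrd.unique {z : B} {k l : ℕ} (h : HasOrd z k) (h' : HasOrd z l) : k = l :=
  le_antisymm ((h'.mem_iff k).1 h.1) ((h.mem_iff l).1 h'.1)

theorem HasOrd.mul {a b : B} {k l : ℕ} (ha : HasOrd a k) (hb : HasOrd b l) :
    HasOrd (a * b) (k + l) := by
  obtain ⟨π, hπ⟩ := IsDiscreteValuationRing.exists_irreducible B
  rw [hasOrd_iff hπ] at ha hb ⊢
  obtain ⟨u, rfl⟩ := ha
  obtain ⟨v, rfl⟩ := hb
  exact ⟨u * v, by push_cast; ring⟩

theorem hasOrd_one : HasOrd (1 : B) 0 := by
  obtain ⟨π, hπ⟩ := IsDiscreteValuationRing.exists_irreducible B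
  exact (hasOrd_iff hπ _ _).2 ⟨1, by simp⟩

theorem hasOrd_zero_iff {z : B} : HasOrd z 0 ↔ IsUnit z := by
  obtain ⟨π, hπ⟩ := IsDiscreteValuationRing.exists_irreducible B
  rw [hasOrd_iff hπ]
  constructor
  · rintro ⟨u, rfl⟩
    simp
  · intro h
    exact ⟨h.unit, by simp⟩

theorem HasOrd.pow {a : B} {k : ℕ} (ha : HasOrd a k) (n : ℕ) : HasOrd (a ^ n) (n * k) := by
  induction n with
  | zero => simpa using hasOrd_one
  | succ n ih =>
    rw [pow_succ, Nat.succ_mul]
    exact ih.mul ha

theorem hasOrd_prod {ι : Type*} (s : Finset ι) (a : ι → B) (k : ι → ℕ)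
    (h : ∀ i ∈ s, HasOrd (a i) (k i)) : HasOrd (∏ i ∈ s, a i) (∑ i ∈ s, k i) := by
  classical
  induction s using Finset.induction_on with
  | empty => simpa using hasOrd_one
  | insert i s hi ih =>
    rw [Finset.prod_insert hi, Finset.sum_insert hi]
    exact (h i (Finset.mem_insert_self i s)).mul
      (ih fun j hj => h j (Finset.mem_insert_of_mem hj))

theorem hasOrd_irreducible {π : B} (hπ : Irreducible π) : HasOrd π 1 :=
  (hasOrd_iff hπ _ _).2 ⟨1, by simp⟩

theorem HasOrd.irreducible {z : B} (h : HasOrd z 1) : Irreducible z := by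
  obtain ⟨π, hπ⟩ := IsDiscreteValuationRing.exists_irreducible B
  obtain ⟨u, rfl⟩ := (hasOrd_iff hπ _ _).1 h
  rw [pow_one]
  exact (irreducible_units_mul u).2 hπ

theorem HasOrd.neg {z : B} {k : ℕ} (h : HasOrd z k) : HasOrd (-z) k :=
  ⟨(Ideal.neg_mem_iff _).2 h.1, fun h' => h.2 ((Ideal.neg_mem_iff _).1 h')⟩

/-- `a` of order `k` plus something of higher order has order `k`. -/
theorem HasOrd.add_mem {a b : B} {k : ℕ} (ha : HasOrd a k) (hb : b ∈ maximalIdeal B ^ (k + 1)) :
    HasOrd (a + b) k :=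
  ⟨Ideal.add_mem _ ha.1 (Ideal.pow_le_pow_right (Nat.le_succ k) hb),
    fun h => ha.2 (by simpa using Ideal.sub_mem _ h hb)⟩

variable {Γ : Type*} [Group Γ] [MulSemiringAction Γ B]

theorem smul_mem_pow_iff (g : Γ) (n : ℕ) (x : B) :
    g • x ∈ maximalIdeal B ^ n ↔ x ∈ maximalIdeal B ^ n := by
  obtain ⟨π, hπ⟩ := IsDiscreteValuationRing.exists_irreducible B
  have key : ∀ (h : Γ) (y : B), y ∈ maximalIdeal B ^ n → h • y ∈ maximalIdeal B ^ n := by
    intro h y hy
    have hirr : Irreducible (h • π) :=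
      (MulEquiv.irreducible_iff (MulSemiringAction.toRingEquiv Γ B h).toMulEquiv).2 hπ
    rw [mem_pow_iff_dvd hπ] at hy
    rw [mem_pow_iff_dvd hirr]
    obtain ⟨c, rfl⟩ := hy
    exact ⟨h • c, by rw [smul_mul', smul_pow']⟩
  constructor
  · intro h
    have := key g⁻¹ _ h
    rwa [inv_smul_smul] at this
  · exact key g x

theorem HasOrd.smul {z : B} {k : ℕ} (h : HasOrd z k) (g : Γ) : HasOrd (g • z) k :=
  ⟨(smul_mem_pow_iff g k z).2 h.1, fun h' => h.2 ((smul_mem_pow_iff g (k + 1) z).1 h')⟩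

end Ord

/-! ### MONO: `B = A[x]` -/

section Mono

variable {A B : Type*} [CommRing A] [IsLocalRing A] [CommRing B] [IsDomain B]
  [IsDiscreteValuationRing B] [Algebra A B] [Module.Finite A B]

/-- **Serre, Local Fields III §6 Prop. 12** (finite residue field): a discrete valuation ring `B`
with finite residue field, module-finite over a local ring `A` with `𝔪_A B = 𝔪_B ^ e`, is
generated by one element as an `A`-algebra. -/
theorem exists_adjoin_eq_top [Finite (ResidueField B)] (e : ℕ)
    (he : (maximalIdeal A).map (algebraMap A B) = maximalIdeal B ^ e) :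
    ∃ x : B, Algebra.adjoin A {x} = ⊤ := by
  classical
  let _ : Fintype (ResidueField B) := Fintype.ofFinite _
  set q := Fintype.card (ResidueField B) with hq
  obtain ⟨g, hg⟩ := IsCyclic.exists_monoid_generator (α := (ResidueField B)ˣ)
  obtain ⟨x₀, hx₀⟩ := residue_surjective (g : ResidueField B)
  obtain ⟨π, hπ⟩ := IsDiscreteValuationRing.exists_irreducible B
  have hπm : π ∈ maximalIdeal B := by
    rw [hπ.maximalIdeal_eq]; exact Ideal.mem_span_singleton_self π
  have hF : ∀ z : B, z ^ q - z ∈ maximalIdeal B := by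
    intro z
    rw [← residue_eq_zero_iff, map_sub, map_pow, FiniteField.pow_card, sub_self]
  obtain ⟨x, hxg, hx1⟩ : ∃ x : B, residue B x = g ∧ HasOrd (x ^ q - x) 1 := by
    by_cases h : x₀ ^ q - x₀ ∈ maximalIdeal B ^ 2
    · refine ⟨x₀ + π, ?_, ?_⟩
      · rw [map_add, hx₀, (residue_eq_zero_iff π).2 hπm, add_zero]
      · obtain ⟨k, hk⟩ := Polynomial.binomExpansion (X ^ q - X : B[X]) x₀ π
        simp only [eval_sub, eval_pow, eval_X, derivative_sub, derivative_X_pow, derivative_X,
          eval_mul, eval_C, eval_one] at hk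
        have hunit : IsUnit ((q : B) * x₀ ^ (q - 1) - 1) := by
          rw [← residue_ne_zero_iff_isUnit, map_sub, map_mul, map_natCast,
            FiniteField.cast_card_eq_zero, zero_mul, map_one, zero_sub]
          exact neg_ne_zero.mpr one_ne_zero
        have h1 : HasOrd (((q : B) * x₀ ^ (q - 1) - 1) * π) 1 := by
          have := (hasOrd_zero_iff.2 hunit).mul (hasOrd_irreducible hπ)
          simpa using this
        have h2 : (x₀ ^ q - x₀) + k * π ^ 2 ∈ maximalIdeal B ^ (1 + 1) :=
          Ideal.add_mem _ h (Ideal.mul_mem_left _ _ (Ideal.pow_mem_pow hπm 2))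
        have := h1.add_mem h2
        rw [hk]
        convert this using 1
        ring
    · exact ⟨x₀, hx₀, by simpa using hF x₀, h⟩
  set ϖ := x ^ q - x with hϖ
  have hϖirr : Irreducible ϖ := hx1.irreducible
  set S := Algebra.adjoin A {x} with hS
  have hxS : x ∈ S := Algebra.subset_adjoin (Set.mem_singleton x)
  have hϖS : ϖ ∈ S := S.sub_mem (S.pow_mem hxS q) hxS
  have hϖm : ϖ ∈ maximalIdeal B := hF x
  have h1 : ∀ b : B, ∃ y ∈ S, b - y ∈ maximalIdeal B := by
    intro b
    by_cases hb : residue B b = 0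
    · exact ⟨0, S.zero_mem, by simpa [residue_eq_zero_iff] using hb⟩
    · obtain ⟨n, hn⟩ := (Submonoid.mem_powers_iff _ _).1 (hg (Units.mk0 _ hb))
      refine ⟨x ^ n, S.pow_mem hxS n, ?_⟩
      rw [← residue_eq_zero_iff, map_sub, map_pow, hxg, sub_eq_zero]
      have := congrArg Units.val hn
      simpa using this.symm
  have h2 : ∀ j : ℕ, ∀ b : B, ∃ y ∈ S, b - y ∈ maximalIdeal B ^ j := by
    intro j
    induction j with
    | zero => intro b; exact ⟨0, S.zero_mem, by simp⟩
    | succ j ih =>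
      intro b
      obtain ⟨y, hy, hby⟩ := h1 b
      rw [hϖirr.maximalIdeal_eq, Ideal.mem_span_singleton] at hby
      obtain ⟨b₁, hb₁⟩ := hby
      obtain ⟨y₁, hy₁, hb₁y⟩ := ih b₁
      refine ⟨y + ϖ * y₁, S.add_mem hy (S.mul_mem hϖS hy₁), ?_⟩
      have : b - (y + ϖ * y₁) = ϖ * (b₁ - y₁) := by
        rw [mul_sub, ← hb₁]; ring
      rw [this, pow_succ']
      exact Ideal.mul_mem_mul hϖm hb₁y
  refine ⟨x, ?_⟩
  have hN : (⊤ : Submodule A B) ≤ Subalgebra.toSubmodule S := by
    apply Submodule.le_of_le_smul_of_le_jacobson_bot (I := maximalIdeal A) Module.Finite.fg_top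
      (IsLocalRing.maximalIdeal_le_jacobson _)
    intro b _
    obtain ⟨y, hy, hby⟩ := h2 e b
    rw [← he] at hby
    have : b = y + (b - y) := by ring
    rw [this]
    exact Submodule.add_mem_sup hy (by rw [Ideal.smul_top_eq_map]; exact hby)
  exact Subalgebra.toSubmodule_injective (top_le_iff.mp hN)

end Mono

/-! ### Group actions: conjugates and invariants -/

section Action

variable {A B Γ : Type*} [CommRing A] [CommRing B] [IsDomain B] [IsDiscreteValuationRing B]
  [Algebra A B] [Group Γ] [MulSemiringAction Γ B] [SMulCommClass Γ A B]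

omit [IsDomain B] [IsDiscreteValuationRing B] in
/-- **Serre, Local Fields IV §1 Lemma 1**: `σ x - x ∣ σ y - y` for every `y ∈ A[x]`. -/
theorem sub_dvd_smul_sub (σ : Γ) (x : B) {y : B} (hy : y ∈ Algebra.adjoin A {x}) :
    σ • x - x ∣ σ • y - y := by
  induction hy using Algebra.adjoin_induction with
  | mem z hz =>
    rw [Set.mem_singleton_iff] at hz
    rw [hz]
  | algebraMap a =>
    rw [smul_algebraMap, sub_self]
    exact dvd_zero _
  | add y z _ _ hy hz =>
    have : σ • (y + z) - (y + z) = (σ • y - y) + (σ • z - z) := by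
      rw [smul_add]; ring
    rw [this]
    exact dvd_add hy hz
  | mul y z _ _ hy hz =>
    have : σ • (y * z) - y * z = (σ • y - y) * σ • z + y * (σ • z - z) := by
      rw [smul_mul']; ring
    rw [this]
    exact dvd_add (Dvd.dvd.mul_right hy _) (Dvd.dvd.mul_left hz _)

omit [IsDomain B] [IsDiscreteValuationRing B] in
/-- If `B = A[x]` and `Γ` acts faithfully, `σ ↦ σ x` is injective. -/
theorem smul_gen_injective [FaithfulSMul Γ B] {x : B} (hx : Algebra.adjoin A {x} = ⊤) :
    Function.Injective fun σ : Γ => σ • x := by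
  intro σ τ h
  have h1 : (τ⁻¹ * σ) • x = x := by
    rw [mul_smul]
    exact (inv_smul_eq_iff).2 h
  have h2 : ∀ y : B, (τ⁻¹ * σ) • y = y := by
    intro y
    have hy : y ∈ Algebra.adjoin A {x} := by rw [hx]; exact Algebra.mem_top
    obtain ⟨c, hc⟩ := sub_dvd_smul_sub (A := A) (τ⁻¹ * σ) x hy
    rw [h1, sub_self, zero_mul, sub_eq_zero] at hc
    exact hc
  have h3 : τ⁻¹ * σ = 1 := FaithfulSMul.eq_of_smul_eq_smul (α := B) fun y => by
    rw [h2 y, one_smul]
  exact (inv_mul_eq_one.1 h3).symm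

omit [IsDomain B] [IsDiscreteValuationRing B] [Algebra A B] [SMulCommClass Γ A B] in
/-- `σ` applied to `∏_{w ∈ N} (X - w b)`. -/
theorem smul_prod_X_sub_C (σ : Γ) (N : Subgroup Γ) [Fintype N] (b : B) :
    σ • (∏ w : N, (X - C ((w : Γ) • b))) = ∏ w : N, (X - C ((σ * (w : Γ)) • b)) := by
  rw [Finset.smul_prod']
  refine Finset.prod_congr rfl fun w _ => ?_
  rw [smul_sub, smul_X, smul_C, mul_smul]

omit [IsDomain B] [IsDiscreteValuationRing B] [Algebra A B] [SMulCommClass Γ A B] in
/-- `∏_{w ∈ N} (X - w b)` is `N`-invariant. -/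
theorem smul_prod_X_sub_C_of_mem {N : Subgroup Γ} [Fintype N] {ν : Γ} (hν : ν ∈ N) (b : B) :
    ν • (∏ w : N, (X - C ((w : Γ) • b))) = ∏ w : N, (X - C ((w : Γ) • b)) := by
  rw [smul_prod_X_sub_C]
  exact Fintype.prod_equiv (Equiv.mulLeft (⟨ν, hν⟩ : N)) _ _ fun w => rfl

omit [IsDomain B] [IsDiscreteValuationRing B] [Algebra A B] [SMulCommClass Γ A B] in
theorem coeff_prod_X_sub_C_invariant {N : Subgroup Γ} [Fintype N] {ν : Γ} (hν : ν ∈ N) (b : B)
    (i : ℕ) :
    ν • (∏ w : N, (X - C ((w : Γ) • b))).coeff i = (∏ w : N, (X - C ((w : Γ) • b))).coeff i := by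
  rw [← coeff_smul, smul_prod_X_sub_C_of_mem hν]

end Action

/-! ### `f = 1`: invariants surject onto the residue field -/

section Residue

/-- The coefficient of `X ^ ((t - 1) p ^ a)` in `(X - c) ^ (p ^ a t)` in characteristic `p`. -/
theorem coeff_X_sub_C_pow_char {K : Type*} [Field K] (p : ℕ) [Fact p.Prime] [CharP K p] (c : K)
    (a t : ℕ) (ht : 0 < t) :
    ((X - C c) ^ (p ^ a * t)).coeff ((t - 1) * p ^ a) = -(c ^ p ^ a) * t := by
  rw [pow_mul, sub_pow_char_pow]
  have h : (X ^ p ^ a - (C c) ^ p ^ a : K[X]) ^ t =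
      expand K (p ^ a) ((X - C (c ^ p ^ a)) ^ t) := by
    simp only [map_pow, map_sub, expand_X, expand_C]
  rw [h, coeff_expand_mul (pow_pos (Fact.out : p.Prime).pos a)]
  obtain ⟨t', rfl⟩ := Nat.exists_eq_succ_of_ne_zero ht.ne'
  rw [sub_eq_add_neg, ← C_neg, coeff_X_add_C_pow]
  simp [Nat.choose_succ_self_right]

variable {B Γ : Type*} [CommRing B] [IsDomain B] [IsDiscreteValuationRing B]
  [Group Γ] [MulSemiringAction Γ B]

omit [IsDomain B] [IsDiscreteValuationRing B] in
theorem smul_natCast' (w : Γ) (t : ℕ) : w • (t : B) = (t : B) :=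
  map_natCast (MulSemiringAction.toRingHom Γ B w) t

/-- If `N` acts trivially on the (finite) residue field, every element of `B` is congruent modulo
`𝔪` to an `N`-invariant element: the residue extension of `B / B^N` is trivial. -/
theorem exists_invariant_residue [Finite (ResidueField B)] (N : Subgroup Γ) [Finite N]
    (hN : ∀ w ∈ N, ∀ b : B, w • b - b ∈ maximalIdeal B) (b : B) :
    ∃ c : B, (∀ w ∈ N, w • c = c) ∧ b - c ∈ maximalIdeal B := by
  classical
  let _ : Fintype N := Fintype.ofFinite _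
  let _ : Fintype (ResidueField B) := Fintype.ofFinite _
  set p := ringChar (ResidueField B) with hp
  have : CharP (ResidueField B) p := ringChar.charP _
  have : Fact p.Prime := ⟨CharP.char_is_prime (ResidueField B) p⟩
  obtain ⟨f, -, hf⟩ := FiniteField.card (ResidueField B) p
  set q := Fintype.card (ResidueField B) with hq
  have hn0 : Fintype.card N ≠ 0 := Fintype.card_ne_zero
  obtain ⟨a, t, ht, hn⟩ := Nat.exists_eq_pow_mul_and_not_dvd hn0 p (Fact.out : p.Prime).ne_one
  have ht0 : 0 < t := Nat.pos_of_ne_zero (by rintro rfl; exact ht (dvd_zero p))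
  set P : B[X] := ∏ w : N, (X - C ((w : Γ) • b)) with hP
  have hres : ∀ w : N, residue B ((w : Γ) • b) = residue B b := fun w => by
    rw [← sub_eq_zero, ← map_sub, residue_eq_zero_iff]; exact hN w w.2 b
  have hPmap : P.map (residue B) = (X - C (residue B b)) ^ (p ^ a * t) := by
    rw [hP, Polynomial.map_prod]
    simp only [Polynomial.map_sub, map_X, map_C, hres, Finset.prod_const, Finset.card_univ, hn]
  set c₁ := P.coeff ((t - 1) * p ^ a) with hc₁def
  have hc₁ : residue B c₁ = -(residue B b ^ p ^ a) * t := by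
    rw [hc₁def, ← coeff_map, hPmap, coeff_X_sub_C_pow_char p _ a t ht0]
  have hc₁inv : ∀ w ∈ N, w • c₁ = c₁ := fun w hw => coeff_prod_X_sub_C_invariant hw b _
  have htκ : (t : ResidueField B) ≠ 0 := by
    rw [Ne, CharP.cast_eq_zero_iff (ResidueField B) p]; exact ht
  have htq : (t : ResidueField B) ^ (q - 1) = 1 := FiniteField.pow_card_sub_one_eq_one _ htκ
  have hq2 : 2 ≤ q := Fintype.one_lt_card
  set c₂ := -((t : B) ^ (q - 2)) * c₁ with hc₂def
  have hc₂ : residue B c₂ = residue B b ^ p ^ a := by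
    have h1 : (t : ResidueField B) ^ (q - 2) * t = 1 := by
      rw [← pow_succ, show q - 2 + 1 = q - 1 by omega, htq]
    rw [hc₂def, map_mul, map_neg, map_pow, map_natCast, hc₁]
    linear_combination (residue B b ^ p ^ a) * h1
  have hc₂inv : ∀ w ∈ N, w • c₂ = c₂ := by
    intro w hw
    rw [hc₂def, smul_mul', smul_neg, smul_pow', smul_natCast', hc₁inv w hw]
  have hfa : a ≤ a * (f : ℕ) := Nat.le_mul_of_pos_right a f.pos
  refine ⟨c₂ ^ p ^ (a * f - a), fun w hw => by rw [smul_pow', hc₂inv w hw], ?_⟩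
  rw [← residue_eq_zero_iff, map_sub, map_pow, hc₂, ← pow_mul, ← pow_add,
    Nat.add_sub_cancel' hfa, mul_comm a, pow_mul, ← hf, FiniteField.pow_card_pow, sub_self]

end Residue

/-! ### `e = |N|`: total ramification of `B` over `B^N` -/

section TotRam

variable {B : Type*} [CommRing B] [IsDomain B] [IsDiscreteValuationRing B]

theorem HasOrd.dvd_of_mem {a z : B} {m : ℕ} (ha : HasOrd a m) (hz : z ∈ maximalIdeal B ^ m) :
    a ∣ z := by
  obtain ⟨π, hπ⟩ := IsDiscreteValuationRing.exists_irreducible B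
  obtain ⟨u, rfl⟩ := (hasOrd_iff hπ _ _).1 ha
  rw [mem_pow_iff_dvd hπ] at hz
  obtain ⟨c, rfl⟩ := hz
  exact ⟨↑u⁻¹ * c, by
    rw [show (u : B) * π ^ m * (↑u⁻¹ * c) = (↑u * ↑u⁻¹) * (π ^ m * c) by ring, Units.mul_inv,
      one_mul]⟩

variable {Γ : Type*} [Group Γ] [MulSemiringAction Γ B] [FaithfulSMul Γ B]

/-- A non-unit invariant of `N` lies in `𝔪 ^ |N|`, if `N` acts trivially on the residue field. -/
theorem invariant_mem_pow_card (A : Type*) [CommRing A] [Algebra A B] [Module.Finite A B]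
    [SMulCommClass Γ A B] [Finite (ResidueField B)] (N : Subgroup Γ) [Finite N]
    (hN : ∀ w ∈ N, ∀ b : B, w • b - b ∈ maximalIdeal B) {z : B} (hz : ∀ w ∈ N, w • z = z)
    (hzm : z ∈ maximalIdeal B) : z ∈ maximalIdeal B ^ Nat.card N := by
  classical
  rcases eq_or_ne z 0 with rfl | hz0
  · exact Ideal.zero_mem _
  let _ : Fintype N := Fintype.ofFinite _
  obtain ⟨r, hr⟩ := exists_hasOrd hz0
  suffices h : Nat.card N ≤ r from Ideal.pow_le_pow_right h hr.1
  obtain ⟨π, hπ⟩ := IsDiscreteValuationRing.exists_irreducible B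
  have hπm : π ∈ maximalIdeal B := by
    rw [hπ.maximalIdeal_eq]; exact Ideal.mem_span_singleton_self π
  -- the ring of invariants
  set R : Subalgebra A B := FixedPoints.subalgebra A B N with hR
  have hmemR : ∀ y : B, y ∈ R ↔ ∀ w ∈ N, w • y = y := fun y =>
    ⟨fun h w hw => h ⟨w, hw⟩, fun h w => h w w.2⟩
  have hzR : z ∈ R := (hmemR z).2 hz
  have : Module.Finite R B := Module.Finite.of_restrictScalars_finite A R B
  -- the span of `1, π, …, π ^ (r - 1)` over the invariants
  set M : Submodule R B := Submodule.span R (Set.range fun j : Fin r => π ^ (j : ℕ)) with hM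
  have h1 : ∀ k : ℕ, k ≤ r → ∀ b : B, ∃ y ∈ M, b - y ∈ maximalIdeal B ^ k := by
    intro k
    induction k with
    | zero => intro _ b; exact ⟨0, M.zero_mem, by simp⟩
    | succ k ih =>
      intro hk b
      obtain ⟨y, hy, hby⟩ := ih (Nat.le_of_succ_le hk) b
      rw [mem_pow_iff_dvd hπ] at hby
      obtain ⟨b₁, hb₁⟩ := hby
      obtain ⟨c, hc, hbc⟩ := exists_invariant_residue N hN b₁
      have hcR : c ∈ R := (hmemR c).2 hc
      refine ⟨y + (⟨c, hcR⟩ : R) • π ^ k, M.add_mem hy (M.smul_mem _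
        (Submodule.subset_span ⟨⟨k, hk⟩, rfl⟩)), ?_⟩
      have : b - (y + (⟨c, hcR⟩ : R) • π ^ k) = π ^ k * (b₁ - c) := by
        rw [Subalgebra.smul_def, smul_eq_mul, mul_sub, ← hb₁]
        ring
      rw [this, pow_succ]
      exact Ideal.mul_mem_mul (Ideal.pow_mem_pow hπm k) hbc
  -- Nakayama
  have hjac : Ideal.span {(⟨z, hzR⟩ : R)} ≤ Ideal.jacobson ⊥ := by
    rw [Ideal.span_le, Set.singleton_subset_iff, SetLike.mem_coe, Ideal.mem_jacobson_bot]
    intro y
    have hu : IsUnit (z * (y : B) + 1) := by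
      by_contra hnu
      have h2 : z * (y : B) + 1 ∈ maximalIdeal B := (mem_maximalIdeal _).2 hnu
      have h3 : (1 : B) ∈ maximalIdeal B := by
        have := Ideal.sub_mem _ h2 (Ideal.mul_mem_right (y : B) _ hzm)
        simp at this
      exact (Ideal.ne_top_iff_one _).1 (maximalIdeal.isMaximal B).ne_top h3
    obtain ⟨s', hs'⟩ := hu.exists_right_inv
    have hs'R : s' ∈ R := by
      rw [hmemR]
      intro w hw
      have h4 : (z * (y : B) + 1) * (w • s') = 1 := by
        have := congrArg (fun t => w • t) hs'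
        simp only [smul_mul', smul_add, smul_one, hz w hw, (hmemR _).1 y.2 w hw] at this
        exact this
      calc w • s' = (s' * (z * (y : B) + 1)) * (w • s') := by
            rw [mul_comm s', hs', one_mul]
        _ = s' * ((z * (y : B) + 1) * (w • s')) := by ring
        _ = s' := by rw [h4, mul_one]
    exact IsUnit.of_mul_eq_one (⟨s', hs'R⟩ : R) (Subtype.ext (by simpa using hs'))
  have hMtop : (⊤ : Submodule R B) ≤ M := by
    apply Submodule.le_of_le_smul_of_le_jacobson_bot Module.Finite.fg_top hjac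
    intro b _
    obtain ⟨y, hy, hby⟩ := h1 r le_rfl b
    obtain ⟨b', hb'⟩ := hr.dvd_of_mem hby
    have : b = y + (⟨z, hzR⟩ : R) • b' := by
      rw [Subalgebra.smul_def, smul_eq_mul, ← hb']; ring
    rw [this]
    exact Submodule.add_mem_sup hy
      (Submodule.smul_mem_smul (Ideal.mem_span_singleton_self _) Submodule.mem_top)
  -- an element of `N` fixing `π` is trivial
  have hfix : ∀ w ∈ N, w • π = π → w = 1 := by
    intro w hw hwπ
    apply FaithfulSMul.eq_of_smul_eq_smul (α := B)
    intro b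
    rw [one_smul]
    have hb : b ∈ M := hMtop Submodule.mem_top
    induction hb using Submodule.span_induction with
    | mem x hx =>
      obtain ⟨j, rfl⟩ := hx
      simp only [smul_pow', hwπ]
    | zero => exact smul_zero w
    | add x y _ _ hx hy => rw [smul_add, hx, hy]
    | smul a x _ hx =>
      rw [Subalgebra.smul_def, smul_eq_mul, smul_mul', hx, (hmemR _).1 a.2 w hw]
  have hinj : Function.Injective fun w : N => (w : Γ) • π := by
    intro w w' h
    have h5 : ((w' : Γ)⁻¹ * (w : Γ)) • π = π := by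
      rw [mul_smul]
      exact (inv_smul_eq_iff).2 h
    have := hfix _ (N.mul_mem (N.inv_mem w'.2) w.2) h5
    exact Subtype.ext (inv_mul_eq_one.1 this).symm
  -- `π` is a root of a monic polynomial of degree `r` with invariant coefficients
  obtain ⟨c, hc⟩ := (Submodule.mem_span_range_iff_exists_fun R).1
    (hMtop (Submodule.mem_top : π ^ r ∈ ⊤))
  set g : B[X] := X ^ r - ∑ j : Fin r, C ((c j : R) : B) * X ^ (j : ℕ) with hg
  have hgmonic : g.Monic := monic_X_pow_sub (degree_sum_fin_lt _)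
  have hgdeg : g.natDegree = r := by
    apply natDegree_eq_of_degree_eq_some
    rw [hg, degree_sub_eq_left_of_degree_lt, degree_X_pow]
    rw [degree_X_pow]
    exact degree_sum_fin_lt _
  have hgπ : g.eval π = 0 := by
    rw [hg, eval_sub, eval_pow, eval_X, eval_finsetSum, ← hc, sub_eq_zero]
    refine (Finset.sum_congr rfl fun j _ => ?_).symm
    rw [eval_mul, eval_C, eval_pow, eval_X, Subalgebra.smul_def, smul_eq_mul]
  have hginv : ∀ w ∈ N, w • g = g := by
    intro w hw
    rw [hg, smul_sub, smul_pow', smul_X, Finset.smul_sum]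
    congr 1
    refine Finset.sum_congr rfl fun j _ => ?_
    rw [smul_mul', smul_C, smul_pow', smul_X, (hmemR _).1 (c j).2 w hw]
  have hroot : ∀ w : N, (w : Γ) • π ∈ g.roots := by
    intro w
    rw [mem_roots hgmonic.ne_zero, IsRoot.def]
    have := smul_eval_smul B (w : Γ) g π
    rw [hginv w w.2, hgπ, smul_zero] at this
    exact this
  have hcard : (Finset.univ.image fun w : N => (w : Γ) • π).card ≤ g.natDegree := by
    apply card_le_degree_of_subset_roots
    intro x hx
    rw [Finset.mem_val, Finset.mem_image] at hx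
    obtain ⟨w, -, rfl⟩ := hx
    exact hroot w
  rw [Finset.card_image_of_injective _ hinj, Finset.card_univ, hgdeg] at hcard
  rwa [Nat.card_eq_fintype_card]

/-- **Total ramification of `B / B^N`**: the valuation of a nonzero `N`-invariant element is
divisible by `|N|`, if `N` acts trivially on the residue field. -/
theorem card_dvd_of_invariant (A : Type*) [CommRing A] [Algebra A B] [Module.Finite A B]
    [SMulCommClass Γ A B] [Finite (ResidueField B)] (N : Subgroup Γ) [Finite N]
    (hN : ∀ w ∈ N, ∀ b : B, w • b - b ∈ maximalIdeal B) {z : B} (hz : ∀ w ∈ N, w • z = z)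
    {k : ℕ} (hk : HasOrd z k) : Nat.card N ∣ k := by
  classical
  let _ : Fintype N := Fintype.ofFinite _
  obtain ⟨π, hπ⟩ := IsDiscreteValuationRing.exists_irreducible B
  set u : B := ∏ w : N, (w : Γ) • π with hu
  have huord : HasOrd u (Nat.card N) := by
    have := hasOrd_prod (Finset.univ : Finset N) (fun w => (w : Γ) • π) (fun _ => 1)
      (fun w _ => (hasOrd_irreducible hπ).smul (w : Γ))
    simpa [Nat.card_eq_fintype_card] using this
  have huinv : ∀ w ∈ N, w • u = u := by
    intro w hw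
    rw [hu, Finset.smul_prod']
    simp only [← mul_smul]
    exact Fintype.prod_equiv (Equiv.mulLeft (⟨w, hw⟩ : N)) _ _ fun w' => rfl
  have hq := (huord.pow (k / Nat.card N))
  have hle : k / Nat.card N * Nat.card N ≤ k := Nat.div_mul_le_self k _
  obtain ⟨z₁, hz₁⟩ := hq.dvd_of_mem (Ideal.pow_le_pow_right hle hk.1)
  have hz₁0 : z₁ ≠ 0 := by
    rintro rfl
    rw [mul_zero] at hz₁
    exact hk.ne_zero hz₁
  have hz₁inv : ∀ w ∈ N, w • z₁ = z₁ := by
    intro w hw
    have h1 := hz w hw
    rw [hz₁, smul_mul', smul_pow', huinv w hw] at h1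
    exact mul_left_cancel₀ hq.ne_zero h1
  obtain ⟨s, hs⟩ := exists_hasOrd hz₁0
  have hks : k = k / Nat.card N * Nat.card N + s := by
    have := hq.mul hs
    rw [← hz₁] at this
    exact hk.unique this
  have hNpos : 0 < Nat.card N := Nat.card_pos
  have hslt : s < Nat.card N := by
    have h1 := Nat.div_add_mod k (Nat.card N)
    have h2 := Nat.mod_lt k hNpos
    have h3 : s = k % Nat.card N := by
      rw [mul_comm] at h1
      omega
    omega
  rcases Nat.eq_zero_or_pos s with hs0 | hs0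
  · rw [hs0, add_zero] at hks
    exact ⟨k / Nat.card N, by rw [mul_comm]; exact hks⟩
  · exfalso
    have hzm : z₁ ∈ maximalIdeal B := by
      have := (hs.mem_iff 1).2 hs0
      simpa using this
    have := invariant_mem_pow_card A N hN hz₁inv hzm
    exact absurd ((hs.mem_iff _).1 this) (not_le.mpr hslt)

end TotRam

/-! ### The quotient formula (Serre, Local Fields IV §1 Prop. 3) -/

section Quot

variable {A B Γ : Type*} [CommRing A] [CommRing B] [IsDomain B] [IsDiscreteValuationRing B]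
  [Algebra A B] [Group Γ] [MulSemiringAction Γ B] [SMulCommClass Γ A B]

omit [IsDomain B] [IsDiscreteValuationRing B] in
theorem smul_map_algebraMap (σ : Γ) (G : A[X]) :
    σ • G.map (algebraMap A B) = G.map (algebraMap A B) := by
  rw [smul_eq_map, Polynomial.map_map]
  congr 1
  ext a
  exact smul_algebraMap σ a

omit [IsDomain B] [IsDiscreteValuationRing B] in
/-- If `B = A[x]`, then `σ` acts trivially modulo `I` as soon as `σ x - x ∈ I`. -/
theorem forall_smul_sub_mem_iff {x : B} (hx : Algebra.adjoin A {x} = ⊤) (σ : Γ) (I : Ideal B) :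
    (∀ y : B, σ • y - y ∈ I) ↔ σ • x - x ∈ I := by
  refine ⟨fun h => h x, fun h y => ?_⟩
  have hy : y ∈ Algebra.adjoin A {x} := by rw [hx]; exact Algebra.mem_top
  obtain ⟨c, hc⟩ := sub_dvd_smul_sub (A := A) σ x hy
  rw [hc]
  exact Ideal.mul_mem_right _ _ h

theorem card_setOf_succ_le (k : ℕ) : Nat.card {n : ℕ | n + 1 ≤ k} = k := by
  have h : {n : ℕ | n + 1 ≤ k} = Set.Iio k := by
    ext n
    simp
  rw [h, Nat.card_coe_set_eq, ← Finset.coe_Iio, Set.ncard_coe_finset, Nat.card_Iio]

omit [IsDiscreteValuationRing B] in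
/-- For `y = G(x)` invariant under `N`, the polynomial `G - y` is divisible by
`∏_{w ∈ N} (X - w x)`. -/
theorem prod_X_sub_C_dvd [FaithfulSMul Γ B] {x : B} (hx : Algebra.adjoin A {x} = ⊤)
    (N : Subgroup Γ) [Fintype N] (G : A[X]) (hy : ∀ ν ∈ N, ν • aeval x G = aeval x G) :
    (∏ w : N, (X - C ((w : Γ) • x))) ∣ G.map (algebraMap A B) - C (aeval x G) := by
  classical
  rcases eq_or_ne (G.map (algebraMap A B) - C (aeval x G)) 0 with h0 | h0
  · rw [h0]; exact dvd_zero _
  set s : Multiset B := Multiset.map (fun w : N => (w : Γ) • x) (Finset.univ : Finset N).val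
    with hs
  have hprod : (∏ w : N, (X - C ((w : Γ) • x))) = (s.map fun a => X - C a).prod := by
    rw [hs, Multiset.map_map]
    rfl
  rw [hprod, Multiset.prod_X_sub_C_dvd_iff_le_roots h0]
  have hnodup : s.Nodup := by
    apply Multiset.Nodup.map _ Finset.univ.nodup
    intro w w' h
    exact Subtype.ext (smul_gen_injective (A := A) hx h)
  rw [Multiset.le_iff_subset hnodup]
  intro a ha
  rw [hs, Multiset.mem_map] at ha
  obtain ⟨w, -, rfl⟩ := ha
  rw [mem_roots h0, IsRoot.def, eval_sub, eval_C]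
  have h1 := smul_eval_smul B (w : Γ) (G.map (algebraMap A B)) x
  rw [smul_map_algebraMap, eval_map_algebraMap, eval_map_algebraMap, hy w w.2] at h1
  rw [eval_map_algebraMap, h1, sub_self]

/-- **The quotient formula, core form.**  Let `B = A[x]`, `N` a normal subgroup of `Γ` acting
trivially on the residue field, `σ ∉ N`.  Then `m = ∑_{w ∈ N} v(σ w x - x)` is divisible by `|N|`
and `m = min {v(σ y - y) | y ∈ B^N}`. -/
theorem quot_formula_core [Module.Finite A B] [FaithfulSMul Γ B] [Finite (ResidueField B)]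
    {x : B} (hx : Algebra.adjoin A {x} = ⊤) (N : Subgroup Γ) [Fintype N] (hnormal : N.Normal)
    (hN : ∀ w ∈ N, ∀ b : B, w • b - b ∈ maximalIdeal B) (σ : Γ) (hσ : σ ∉ N) :
    ∃ (i : N → ℕ) (m : ℕ), (∀ w : N, HasOrd ((σ * (w : Γ)) • x - x) (i w)) ∧
      ∑ w : N, i w = m ∧ Nat.card N ∣ m ∧
      ∀ k : ℕ, (∀ y : B, (∀ ν ∈ N, ν • y = y) → σ • y - y ∈ maximalIdeal B ^ k) ↔ k ≤ m := by
  classical
  have hne : ∀ w : N, (σ * (w : Γ)) • x - x ≠ 0 := by
    intro w h
    rw [sub_eq_zero] at h
    have h1 : σ * (w : Γ) = 1 := smul_gen_injective (A := A) hx (by simpa using h)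
    apply hσ
    have : σ = (w : Γ)⁻¹ := eq_inv_of_mul_eq_one_left h1
    rw [this]
    exact N.inv_mem w.2
  choose i hi using fun w => exists_hasOrd (hne w)
  set m := ∑ w : N, i w with hm
  set f : B[X] := ∏ w : N, (X - C ((w : Γ) • x)) with hf
  set z₀ : B := (σ • f).eval x with hz₀
  have hz₀prod : z₀ = ∏ w : N, (x - (σ * (w : Γ)) • x) := by
    rw [hz₀, hf, smul_prod_X_sub_C, eval_prod]
    simp only [eval_sub, eval_X, eval_C]
  have hz₀ord : HasOrd z₀ m := by
    rw [hz₀prod, hm]
    apply hasOrd_prod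
    intro w _
    have := (hi w).neg
    rwa [neg_sub] at this
  have hfx : f.eval x = 0 := by
    rw [hf, eval_prod]
    apply Finset.prod_eq_zero (Finset.mem_univ (1 : N))
    simp
  -- (ii) `z₀` divides `σ y - y` for invariant `y`
  have hdvd : ∀ y : B, (∀ ν ∈ N, ν • y = y) → z₀ ∣ σ • y - y := by
    intro y hy
    have hyx : y ∈ Algebra.adjoin A {x} := by rw [hx]; exact Algebra.mem_top
    rw [Algebra.adjoin_singleton_eq_range_aeval] at hyx
    obtain ⟨G, rfl⟩ := hyx
    obtain ⟨h, hh⟩ := prod_X_sub_C_dvd hx N G hy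
    have h1 := congrArg (fun P : B[X] => (σ • P).eval x) hh
    simp only [smul_sub, smul_map_algebraMap, smul_C, smul_mul', eval_sub, eval_C, eval_mul,
      eval_map_algebraMap] at h1
    rw [← hf] at h1
    rw [← dvd_neg, neg_sub]
    exact ⟨_, h1⟩
  -- (i) `z₀` is a combination of the `σ c - c`, `c` the coefficients of `f`
  have hcoef : ∀ k : ℕ, (∀ j : ℕ, σ • f.coeff j - f.coeff j ∈ maximalIdeal B ^ k) →
      z₀ ∈ maximalIdeal B ^ k := by
    intro k hk
    have h1 : z₀ = (σ • f - f).eval x := by rw [eval_sub, hfx, sub_zero]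
    rw [h1, eval_eq_sum_range]
    apply Ideal.sum_mem
    intro j _
    rw [coeff_sub, coeff_smul]
    exact Ideal.mul_mem_right _ _ (hk j)
  have hfinv : ∀ j : ℕ, ∀ ν ∈ N, ν • f.coeff j = f.coeff j := fun j ν hν =>
    coeff_prod_X_sub_C_invariant hν x j
  have hchar : ∀ k : ℕ,
      (∀ y : B, (∀ ν ∈ N, ν • y = y) → σ • y - y ∈ maximalIdeal B ^ k) ↔ k ≤ m := by
    intro k
    constructor
    · intro h
      exact (hz₀ord.mem_iff k).1 (hcoef k fun j => h _ (hfinv j))
    · intro hk y hy
      obtain ⟨c, hc⟩ := hdvd y hy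
      rw [hc]
      exact Ideal.mul_mem_right _ _ ((hz₀ord.mem_iff k).2 hk)
  refine ⟨i, m, hi, rfl, ?_, hchar⟩
  -- divisibility
  obtain ⟨j, hj⟩ : ∃ j : ℕ, σ • f.coeff j - f.coeff j ∉ maximalIdeal B ^ (m + 1) := by
    by_contra hcon
    rw [not_exists] at hcon
    have := hcoef (m + 1) fun j => not_not.mp (hcon j)
    exact absurd ((hz₀ord.mem_iff _).1 this) (by omega)
  have hjm : σ • f.coeff j - f.coeff j ∈ maximalIdeal B ^ m :=
    (hchar m).2 le_rfl _ (hfinv j)
  have hinv : ∀ ν ∈ N, ν • (σ • f.coeff j - f.coeff j) = σ • f.coeff j - f.coeff j := by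
    intro ν hν
    have h1 : σ⁻¹ * ν * σ ∈ N := by
      have := hnormal.conj_mem ν hν σ⁻¹
      rwa [inv_inv] at this
    have h2 : ν • σ • f.coeff j = σ • f.coeff j := by
      have := hfinv j _ h1
      rw [mul_smul, mul_smul, inv_smul_eq_iff] at this
      exact this
    rw [smul_sub, h2, hfinv j ν hν]
  have : Finite N := Finite.of_fintype N
  exact card_dvd_of_invariant A N hN hinv ⟨hjm, hj⟩

end Quot

end Fermat.Agent.S56.H854
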