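import Fermat.Agent.S56.FL.RamLemSpec
import Fermat.Agent.S56.H854.RamCore

/-!
# Row S56 — W-FLAT-SS, piece FL-RAM (helper854): `RLQuotFormulaStatement`, VERBATIM

Serre, *Local Fields* IV §1 Prop. 3: for `N ≤ Γ₁` normal and `σ ∉ N`,
`∑_{w ∈ N} i_Γ(σ w) = |N| · i_{Γ/N}(σ N)`.

* `rcDatum_exists_gen` : MONO for an `RCDatum` — `B = A[x]`.
* `rlQuotFormula`      : `FL.RLQuotFormulaStatement`.

Proof: with `B = A[x]` and `f = ∏_{w ∈ N} (X - w x)`, the element `(σ f)(x)` has valuation
`m = ∑_w i(σ w)`; it is a combination of the `σ c - c` (`c` a coefficient of `f`) and it divides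
`σ y - y` for every `y ∈ B^N`; and `|N| ∣ m` since `B / B^N` is totally ramified
(`H854.card_dvd_of_invariant`).
-/

set_option autoImplicit false

open Polynomial IsLocalRing

namespace Fermat.Agent.S56.H854

open Fermat.Agent.S56.FL

theorem rcDatum_finite_residue (d : RCDatum) : Finite (ResidueField d.B) := by
  have h : Finite (ResidueField d.A) :=
    Nat.finite_of_card_ne_zero (by rw [d.hκ]; exact d.hp.ne_zero)
  exact IsLocalRing.ResidueField.finite_of_finite h

theorem rcDatum_map_maximalIdeal (d : RCDatum) :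
    (maximalIdeal d.A).map (algebraMap d.A d.B) = maximalIdeal d.B ^ d.e := by
  rw [d.hA, Ideal.map_span, Set.image_singleton, map_natCast, d.he]

/-- MONO for an `RCDatum`: `B = A[x]`. -/
theorem rcDatum_exists_gen (d : RCDatum) : ∃ x : d.B, Algebra.adjoin d.A {x} = ⊤ :=
  haveI := rcDatum_finite_residue d
  exists_adjoin_eq_top d.e (rcDatum_map_maximalIdeal d)

/-- `RLQuotFormulaStatement`, verbatim. -/
theorem rlQuotFormula : RLQuotFormulaStatement := by
  intro d N hN σ hσ
  classical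
  have := rcDatum_finite_residue d
  obtain ⟨x, hx⟩ := rcDatum_exists_gen d
  let _ : Fintype N := Fintype.ofFinite _
  have hN0 : ∀ w ∈ N, ∀ b : d.B, w • b - b ∈ maximalIdeal d.B := fun w hw b =>
    Ideal.pow_le_self (by norm_num) (hN.2 hw b)
  obtain ⟨i, m, hi, hsum, hdvd, hchar⟩ := quot_formula_core hx N hN.1 hN0 σ hσ
  have hL : ∀ w : N, Nat.card {n : ℕ | σ * (w : d.Γ) ∈ ramGroup d.B d.Γ n} = i w := by
    intro w
    have h : {n : ℕ | σ * (w : d.Γ) ∈ ramGroup d.B d.Γ n} = {n | n + 1 ≤ i w} := by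
      ext n
      simp only [Set.mem_ofPred_eq]
      rw [mem_ramGroup, forall_smul_sub_mem_iff hx, (hi w).mem_iff]
    rw [h, card_setOf_succ_le]
  have hR : Nat.card {n : ℕ | σ ∈ d.qRam N n} = m / Nat.card N := by
    have h : {n : ℕ | σ ∈ d.qRam N n} = {n | n + 1 ≤ m / Nat.card N} := by
      ext n
      simp only [Set.mem_ofPred_eq, RCDatum.qRam]
      rw [hchar, Nat.le_div_iff_mul_le Nat.card_pos, mul_comm]
    rw [h, card_setOf_succ_le]
  rw [hR, Nat.mul_div_cancel' hdvd, ← hsum, ← finsum_subtype_eq_finsum_cond (· ∈ N),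
    finsum_eq_sum_of_fintype]
  exact Finset.sum_congr rfl fun w _ => hL w

end Fermat.Agent.S56.H854
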